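import Mathlib

/-!
# The ring of integers of the completion of a Dedekind domain at a maximal ideal
(owner: helper62)

For a Dedekind domain `R` with fraction field `K` and `v : HeightOneSpectrum R`, Mathlib knows
that `v.adicCompletionIntegers K` is a discrete valuation ring.  We add: the powers of its maximal
ideal are the balls of the valuation, `R` is dense, the residue field is finite when `R ⧸ v` is,
and it is adically complete.
-/

namespace Fermat.Agent.DVRPoints

open IsDedekindDomain HeightOneSpectrum WithZero IsLocalRing

variable {R : Type*} [CommRing R] [IsDedekindDomain R] {K : Type*} [Field K] [Algebra R K]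
  [IsFractionRing R K] (v : HeightOneSpectrum R)

lemma mem_maximalIdeal_iff_valued_lt_one (x : v.adicCompletionIntegers K) :
    x ∈ maximalIdeal (v.adicCompletionIntegers K) ↔ Valued.v (x : v.adicCompletion K) < 1 := by
  rw [mem_maximalIdeal, mem_nonunits_iff, adicCompletionIntegers.isUnit_iff_valued_eq_one]
  have h1 : Valued.v (x : v.adicCompletion K) ≤ 1 := x.2
  exact ⟨fun h => lt_of_le_of_ne h1 h, fun h => h.ne⟩

lemma lt_one_iff_le_exp_neg_one (x : ℤᵐ⁰) : x < 1 ↔ x ≤ exp (-1 : ℤ) := by
  have h := lt_mul_exp_iff_le (x := x) (y := exp (-1 : ℤ)) exp_ne_zero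
  rw [← exp_add] at h
  simpa using h

/-- the valuation of the image of `r : R` in the completion -/
lemma valued_algebraMap (r : R) :
    Valued.v ((algebraMap R (v.adicCompletionIntegers K) r : v.adicCompletionIntegers K) :
      v.adicCompletion K) = v.intValuation r := by
  rw [algebraMap_adicCompletionIntegers_apply, valuedAdicCompletion_eq_valuation',
    valuation_of_algebraMap]

lemma mem_maximalIdeal_pow_iff_valued_le (x : v.adicCompletionIntegers K) (n : ℕ) :
    x ∈ maximalIdeal (v.adicCompletionIntegers K) ^ n ↔
      Valued.v (x : v.adicCompletion K) ≤ exp (-(n : ℤ)) := by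
  obtain ⟨ϖ, hϖ⟩ := intValuation_exists_uniformizer v
  set π : v.adicCompletionIntegers K := algebraMap R _ ϖ with hπ
  have hvπ : Valued.v (π : v.adicCompletion K) = exp (-1 : ℤ) := by
    rw [hπ, valued_algebraMap, hϖ]
  have hint := adicCompletionIntegers.integers K v
  have hdvd : ∀ (y z : v.adicCompletionIntegers K), y ∣ z ↔
      Valued.v (z : v.adicCompletion K) ≤ Valued.v (y : v.adicCompletion K) :=
    fun y z => hint.dvd_iff_le
  have hmax : maximalIdeal (v.adicCompletionIntegers K) = Ideal.span {π} := by
    ext y
    rw [mem_maximalIdeal_iff_valued_lt_one, Ideal.mem_span_singleton, hdvd, hvπ,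
      lt_one_iff_le_exp_neg_one]
  rw [hmax, Ideal.span_singleton_pow, Ideal.mem_span_singleton, hdvd]
  have : Valued.v ((π ^ n : v.adicCompletionIntegers K) : v.adicCompletion K)
      = exp (-(n : ℤ)) := by
    have h1 : ((π ^ n : v.adicCompletionIntegers K) : v.adicCompletion K)
        = (π : v.adicCompletion K) ^ n := rfl
    rw [h1, map_pow, hvπ, ← exp_nsmul]
    simp
  rw [this]

/-- membership of the image of `r : R` in a power of the maximal ideal -/
lemma algebraMap_mem_maximalIdeal_pow_iff (r : R) (n : ℕ) :
    algebraMap R (v.adicCompletionIntegers K) r ∈ maximalIdeal (v.adicCompletionIntegers K) ^ n ↔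
      v.intValuation r ≤ exp (-(n : ℤ)) := by
  rw [mem_maximalIdeal_pow_iff_valued_le, valued_algebraMap]

/-- an element of `R` whose image has valuation `exp (-n)` -/
lemma exists_valued_algebraMap_eq (n : ℕ) :
    ∃ c : R, Valued.v ((algebraMap R (v.adicCompletionIntegers K) c : v.adicCompletionIntegers K) :
      v.adicCompletion K) = exp (-(n : ℤ)) := by
  obtain ⟨ϖ, hϖ⟩ := intValuation_exists_uniformizer v
  refine ⟨ϖ ^ n, ?_⟩
  rw [valued_algebraMap, map_pow, hϖ, ← exp_nsmul]
  simp

lemma valued_algebraMap_field (k : K) :
    Valued.v (algebraMap K (v.adicCompletion K) k) = v.valuation K k := by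
  have hkk : algebraMap K (v.adicCompletion K) k = (k : v.adicCompletion K) := by
    rw [algebraMap_adicCompletion]; rfl
  rw [hkk, valuedAdicCompletion_eq_valuation']

lemma coe_algebraMap_eq (a : R) :
    ((algebraMap R (v.adicCompletionIntegers K) a : v.adicCompletionIntegers K) :
      v.adicCompletion K) = algebraMap K (v.adicCompletion K) (algebraMap R K a) := by
  rw [algebraMap_adicCompletionIntegers_apply, algebraMap_adicCompletion]; rfl

/-- `R` is dense in the ring of integers of the completion. -/
lemma exists_algebraMap_sub_mem (x : v.adicCompletionIntegers K) (n : ℕ) :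
    ∃ a : R, x - algebraMap R (v.adicCompletionIntegers K) a ∈
      maximalIdeal (v.adicCompletionIntegers K) ^ n := by
  obtain ⟨c, hc⟩ := exists_valued_algebraMap_eq (K := K) v n
  set c' : v.adicCompletion K :=
    ((algebraMap R (v.adicCompletionIntegers K) c : v.adicCompletionIntegers K) :
      v.adicCompletion K) with hc'
  have hc0 : (Valued.v : Valuation (v.adicCompletion K) ℤᵐ⁰).restrict c' ≠ 0 := by
    rw [Ne, Valuation.restrict_eq_zero_iff, hc]
    exact exp_ne_zero
  have hnhds : {y : v.adicCompletion K |
      (Valued.v : Valuation (v.adicCompletion K) ℤᵐ⁰).restrict (y - x) <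
        (Units.mk0 _ hc0 : (MonoidWithZeroHom.ValueGroup₀ _)ˣ).1} ∈
        nhds (x : v.adicCompletion K) :=
    Valued.mem_nhds.2 ⟨Units.mk0 _ hc0, subset_rfl⟩
  obtain ⟨y, ⟨k, rfl⟩, hy⟩ := (denseRange_algebraMap (K := K) v).inter_nhds_nonempty hnhds
  simp only [Units.val_mk0, Set.mem_ofPred_eq, Valuation.restrict_lt_iff] at hy
  rw [hc] at hy
  have hk1 : v.valuation K k ≤ 1 := by
    rw [← valued_algebraMap_field]
    have h1 : algebraMap K (v.adicCompletion K) k
        = (algebraMap K (v.adicCompletion K) k - x) + x := by ring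
    rw [h1]
    refine (Valuation.map_add _ _ _).trans (max_le (hy.le.trans ?_) x.2)
    rw [← exp_zero, exp_le_exp]
    omega
  obtain ⟨a, ha⟩ := exists_valuation_sub_lt_of_integer v hk1
    (Units.mk0 (exp (-(n : ℤ))) exp_ne_zero)
  rw [Units.val_mk0] at ha
  refine ⟨a, ?_⟩
  rw [mem_maximalIdeal_pow_iff_valued_le]
  have h2 : ((x - algebraMap R (v.adicCompletionIntegers K) a : v.adicCompletionIntegers K) :
      v.adicCompletion K) = - ((algebraMap K (v.adicCompletion K) k - x) +
        algebraMap K (v.adicCompletion K) (algebraMap R K a - k)) := by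
    have h4 : ((x - algebraMap R (v.adicCompletionIntegers K) a : v.adicCompletionIntegers K) :
      v.adicCompletion K) = (x : v.adicCompletion K) -
        ((algebraMap R (v.adicCompletionIntegers K) a : v.adicCompletionIntegers K) :
          v.adicCompletion K) := rfl
    rw [h4, coe_algebraMap_eq, map_sub]
    ring
  rw [h2, Valuation.map_neg]
  refine (Valuation.map_add _ _ _).trans (max_le hy.le ?_)
  rw [valued_algebraMap_field]
  exact ha.le

lemma algebraMap_mem_maximalIdeal_iff (r : R) :
    algebraMap R (v.adicCompletionIntegers K) r ∈ maximalIdeal (v.adicCompletionIntegers K) ↔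
      r ∈ v.asIdeal := by
  rw [mem_maximalIdeal_iff_valued_lt_one, valued_algebraMap, intValuation_lt_one_iff_mem]

/-- The residue field of the completion is finite when `R ⧸ v` is. -/
theorem finite_residueField [Finite (R ⧸ v.asIdeal)] :
    Finite (ResidueField (v.adicCompletionIntegers K)) := by
  let f : R →+* ResidueField (v.adicCompletionIntegers K) :=
    (residue (v.adicCompletionIntegers K)).comp (algebraMap R (v.adicCompletionIntegers K))
  have hker : ∀ a ∈ v.asIdeal, f a = 0 := by
    intro a ha
    change residue (v.adicCompletionIntegers K) (algebraMap R _ a) = 0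
    rw [residue_eq_zero_iff, algebraMap_mem_maximalIdeal_iff]
    exact ha
  have hsurj : Function.Surjective (Ideal.Quotient.lift v.asIdeal f hker) := by
    intro y
    obtain ⟨x, rfl⟩ := residue_surjective y
    obtain ⟨a, ha⟩ := exists_algebraMap_sub_mem (K := K) v x 1
    refine ⟨Ideal.Quotient.mk _ a, ?_⟩
    rw [Ideal.Quotient.lift_mk]
    change residue (v.adicCompletionIntegers K) (algebraMap R _ a) = _
    rw [pow_one, ← residue_eq_zero_iff, map_sub, sub_eq_zero] at ha
    exact ha.symm
  exact Finite.of_surjective _ hsurj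

theorem charZero_adicCompletionIntegers [CharZero K] :
    CharZero (v.adicCompletionIntegers K) := by
  have h1 : CharZero (v.adicCompletion K) :=
    (RingHom.charZero_iff (algebraMap K (v.adicCompletion K)).injective).1 inferInstance
  exact (RingHom.charZero_iff (ϕ := algebraMap (v.adicCompletionIntegers K) (v.adicCompletion K))
    (FaithfulSMul.algebraMap_injective _ _)).2 h1

lemma natCast_mem_maximalIdeal (p : ℕ) (hp : (p : R) ∈ v.asIdeal) :
    (p : v.adicCompletionIntegers K) ∈ maximalIdeal (v.adicCompletionIntegers K) := by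
  have := (algebraMap_mem_maximalIdeal_iff (K := K) v (p : R)).2 hp
  rwa [map_natCast] at this

/-- The ring of integers of the completion is adically complete. -/
theorem isAdicComplete_adicCompletionIntegers :
    IsAdicComplete (maximalIdeal (v.adicCompletionIntegers K)) (v.adicCompletionIntegers K) where
  prec' f hf := by
    simp only [smul_eq_mul, Ideal.mul_top, SModEq.sub_mem,
      mem_maximalIdeal_pow_iff_valued_le] at hf ⊢
    set g : ℕ → v.adicCompletion K := fun n => (f n : v.adicCompletion K) with hg
    have hg' : ∀ m n : ℕ, m ≤ n → Valued.v (g m - g n) ≤ exp (-(m : ℤ)) :=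
      fun m n hmn => hf hmn
    have hcauchy : CauchySeq g := by
      rw [CauchySeq, Valued.cauchy_iff]
      refine ⟨inferInstance, fun γ => ?_⟩
      have hγ : (MonoidWithZeroHom.ValueGroup₀.embedding γ.1 : ℤᵐ⁰) ≠ 0 := by
        simp
      obtain ⟨n, hn⟩ := exists_exp_neg_natCast_lt hγ
      refine ⟨g '' Set.Ici n, Filter.image_mem_map (Filter.Ici_mem_atTop n), ?_⟩
      rintro _ ⟨a, ha, rfl⟩ _ ⟨b, hb, rfl⟩
      rw [Valuation.restrict_lt_iff_lt_embedding]
      refine lt_of_le_of_lt ?_ hn
      have h1 : g b - g a = -(g n - g b) + (g n - g a) := by ring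
      rw [h1]
      refine (Valuation.map_add _ _ _).trans (max_le ?_ (hg' n a ha))
      rw [Valuation.map_neg]
      exact hg' n b hb
    obtain ⟨L, hL⟩ := cauchySeq_tendsto_of_complete hcauchy
    have hball : ∀ n : ℕ, Valued.v (g n - L) ≤ exp (-(n : ℤ)) := by
      intro n
      obtain ⟨c, hc⟩ := exists_valued_algebraMap_eq (K := K) v n
      set c' : v.adicCompletion K :=
        ((algebraMap R (v.adicCompletionIntegers K) c : v.adicCompletionIntegers K) :
          v.adicCompletion K) with hc'
      have hclosed : IsClosed {y : v.adicCompletion K |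
          (Valued.v : Valuation (v.adicCompletion K) ℤᵐ⁰).restrict (g n - y) ≤
            (Valued.v : Valuation (v.adicCompletion K) ℤᵐ⁰).restrict c'} :=
        (Valued.isClosed_closedBall (v.adicCompletion K) _).preimage
          (continuous_const.sub continuous_id)
      have hmem := hclosed.mem_of_tendsto hL
        (Filter.eventually_atTop.2 ⟨n, fun m hm => by
          rw [Set.mem_ofPred_eq, Valuation.restrict_le_iff, hc]
          exact hg' n m hm⟩)
      rw [Set.mem_ofPred_eq, Valuation.restrict_le_iff, hc] at hmem
      exact hmem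
    have hLmem : L ∈ v.adicCompletionIntegers K := by
      rw [mem_adicCompletionIntegers]
      have h1 : L = -(g 0 - L) + g 0 := by ring
      rw [h1]
      refine (Valuation.map_add _ _ _).trans (max_le ?_ (f 0).2)
      rw [Valuation.map_neg]
      simpa using hball 0
    exact ⟨⟨L, hLmem⟩, fun n => hball n⟩

end Fermat.Agent.DVRPoints
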