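import Mathlib
import Fermat.Agent.Lib.DVRPoints.Completion

/-!
# Separation by the completions at the primes dividing `t` in a Dedekind domain
(owner: helper62)
-/

namespace Fermat.Agent.DVRPoints

open IsDedekindDomain HeightOneSpectrum WithZero IsLocalRing

variable {R : Type*} [CommRing R] [IsDedekindDomain R]

/-- the exponent of `v` in `t` -/
lemma exists_intValuation_eq_exp (v : HeightOneSpectrum R) (t : R) (ht : t ≠ 0) :
    ∃ e : ℕ, v.intValuation t = exp (-(e : ℤ)) :=
  ⟨_, v.intValuation_if_neg ht⟩

/-- An element of a Dedekind domain which is highly divisible by all the primes dividing `t` is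
divisible by `t ^ k`. -/
theorem exists_pow_separation (t : R) (ht : t ≠ 0) (k : ℕ) :
    ∃ m : ℕ, ∀ y : R,
      (∀ v : HeightOneSpectrum R, t ∈ v.asIdeal → v.intValuation y ≤ exp (-(m : ℤ))) →
        ∃ z : R, y = t ^ k * z := by
  classical
  have hfin : {v : HeightOneSpectrum R | v.asIdeal ∣ Ideal.span {t}}.Finite :=
    Ideal.finite_factors (by simpa using ht)
  choose e he using fun v : HeightOneSpectrum R => exists_intValuation_eq_exp v t ht
  refine ⟨k * hfin.toFinset.sup e, fun y hy => ?_⟩
  set K := FractionRing R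
  have hx : ∀ v : HeightOneSpectrum R,
      v.valuation K (algebraMap R K y / algebraMap R K (t ^ k)) ≤ 1 := by
    intro v
    have htk : v.intValuation (t ^ k) ≠ 0 := v.intValuation_ne_zero _ (pow_ne_zero k ht)
    rw [map_div₀, valuation_of_algebraMap, valuation_of_algebraMap,
      div_le_one₀ (zero_lt_iff.2 htk), map_pow]
    by_cases hv : t ∈ v.asIdeal
    · refine (hy v hv).trans ?_
      rw [he v, ← exp_nsmul, exp_le_exp]
      have h1 : e v ≤ hfin.toFinset.sup e := by
        apply Finset.le_sup
        rw [Set.Finite.mem_toFinset, Set.mem_ofPred_eq, Ideal.dvd_span_singleton]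
        exact hv
      have h2 : k * e v ≤ k * hfin.toFinset.sup e := Nat.mul_le_mul_left k h1
      simp only [nsmul_eq_mul, mul_neg, neg_le_neg_iff]
      exact_mod_cast h2
    · rw [intValuation_eq_one_iff.2 hv, one_pow]
      exact v.intValuation_le_one y
  obtain ⟨z, hz⟩ := mem_integers_of_valuation_le_one K _ hx
  refine ⟨z, ?_⟩
  have htk0 : algebraMap R K (t ^ k) ≠ 0 := by
    rw [Ne, map_eq_zero_iff _ (IsFractionRing.injective R K)]
    exact pow_ne_zero k ht
  apply IsFractionRing.injective R K
  rw [map_mul, hz, mul_div_cancel₀ _ htk0]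

end Fermat.Agent.DVRPoints
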