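import Mathlib
import Fermat.Agent.Lib.DVRPoints.Separation

/-!
# Points of a ring in complete discrete valuation rings, from maps to rings of integers
(owner: helper62)

`DVRPt p h`: a ring homomorphism from `h` to a complete discrete valuation ring of characteristic
zero with finite residue field of characteristic `p`.

`DVRSeparation p h`: finitely many such points separate `h` uniformly for the `p`-adic topology.

Main result `dvrSeparation_of_family`: a ring with a finite jointly injective family of ring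
homomorphisms to rings of integers of number fields has `DVRSeparation p` for every prime `p`.
-/

namespace Fermat.Agent.DVRPoints

open IsDedekindDomain HeightOneSpectrum WithZero IsLocalRing NumberField

universe u

/-- A point of the ring `h` in a complete discrete valuation ring of characteristic zero with
finite residue field of characteristic `p`. -/
structure DVRPt (p : ℕ) (h : Type u) [CommRing h] : Type (u + 1) where
  /-- the coefficient ring -/
  O : Type u
  [instCommRing : CommRing O]
  [instIsDomain : IsDomain O]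
  [instDVR : IsDiscreteValuationRing O]
  [instComplete : IsAdicComplete (IsLocalRing.maximalIdeal O) O]
  [instFinite : Finite (IsLocalRing.ResidueField O)]
  [instCharZero : CharZero O]
  hp : (p : O) ∈ IsLocalRing.maximalIdeal O
  /-- the point -/
  χ : h →+* O

attribute [instance] DVRPt.instCommRing DVRPt.instIsDomain DVRPt.instDVR DVRPt.instComplete
  DVRPt.instFinite DVRPt.instCharZero

/-- Finitely many DVR points separate `h` uniformly for the `p`-adic topology. -/
def DVRSeparation (p : ℕ) (h : Type u) [CommRing h] : Prop :=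
  ∃ (d : ℕ) (P : Fin d → DVRPt p h), ∀ r : ℕ, ∃ m : ℕ, ∀ X : h,
    (∀ i, (P i).χ X ∈ IsLocalRing.maximalIdeal (P i).O ^ m) → ∃ Y : h, X = (p : h) ^ r * Y

lemma DVRSeparation.of_finite {p : ℕ} {h : Type u} [CommRing h] {ι : Type*} [Finite ι]
    (P : ι → DVRPt p h)
    (hP : ∀ r : ℕ, ∃ m : ℕ, ∀ X : h,
      (∀ i, (P i).χ X ∈ IsLocalRing.maximalIdeal (P i).O ^ m) → ∃ Y : h, X = (p : h) ^ r * Y) :
    DVRSeparation p h := by
  obtain ⟨d, ⟨e⟩⟩ := Finite.exists_equiv_fin ι
  refine ⟨d, fun i => P (e.symm i), fun r => ?_⟩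
  obtain ⟨m, hm⟩ := hP r
  refine ⟨m, fun X hX => hm X fun i => ?_⟩
  have key : ∀ j : ι, j = e.symm (e i) →
      (P j).χ X ∈ IsLocalRing.maximalIdeal (P j).O ^ m := by
    rintro j rfl
    exact hX (e i)
  exact key i (e.symm_apply_apply i).symm

/-- The point of the ring of integers of a number field at a prime above `p`. -/
noncomputable def DVRPt.ofPlace (p : ℕ) (K : Type u) [Field K] [NumberField K]
    (v : HeightOneSpectrum (𝓞 K)) (hv : (p : 𝓞 K) ∈ v.asIdeal) : DVRPt p (𝓞 K) :=
  haveI : Finite (𝓞 K ⧸ v.asIdeal) := Ideal.finiteQuotientOfFreeOfNeBot v.asIdeal v.ne_bot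
  { O := v.adicCompletionIntegers K
    instComplete := isAdicComplete_adicCompletionIntegers v
    instFinite := finite_residueField v
    instCharZero := charZero_adicCompletionIntegers v
    hp := natCast_mem_maximalIdeal v p hv
    χ := algebraMap (𝓞 K) (v.adicCompletionIntegers K) }

/-- Pull back a point along a ring homomorphism. -/
def DVRPt.comap {p : ℕ} {h h' : Type u} [CommRing h] [CommRing h'] (P : DVRPt p h')
    (φ : h →+* h') : DVRPt p h :=
  { O := P.O
    hp := P.hp
    χ := P.χ.comp φ }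

/-- Artin–Rees for `ℤ`-modules and the ideal `(p)`. -/
theorem exists_artinRees_int {N M : Type*} [AddCommGroup N] [AddCommGroup M] [Module.Finite ℤ M]
    (f : N →+ M) (hf : Function.Injective f) (p : ℕ) :
    ∃ c : ℕ, ∀ (r : ℕ) (x : N), (∃ y : M, f x = (p ^ (r + c) : ℤ) • y) →
      ∃ x' : N, x = (p ^ r : ℤ) • x' := by
  set g : N →ₗ[ℤ] M := f.toIntLinearMap with hg
  obtain ⟨c, hc⟩ := Ideal.exists_pow_inf_eq_pow_smul (Ideal.span {(p : ℤ)}) (LinearMap.range g)
  refine ⟨c, fun r x ⟨y, hy⟩ => ?_⟩
  have h1 : g x ∈ (Ideal.span {(p : ℤ)}) ^ (r + c) • (⊤ : Submodule ℤ M) ⊓ LinearMap.range g := by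
    refine ⟨?_, LinearMap.mem_range_self g x⟩
    have : g x = (p ^ (r + c) : ℤ) • y := hy
    rw [this, Ideal.span_singleton_pow]
    exact Submodule.smul_mem_smul (Ideal.mem_span_singleton_self _) Submodule.mem_top
  rw [hc (r + c) (Nat.le_add_left c r), Nat.add_sub_cancel] at h1
  have h2 : g x ∈ (Ideal.span {(p : ℤ)}) ^ r • LinearMap.range g :=
    Submodule.smul_mono le_rfl inf_le_right h1
  rw [Ideal.span_singleton_pow, Submodule.ideal_span_singleton_smul,
    Submodule.mem_smul_pointwise_iff_exists] at h2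
  obtain ⟨_, ⟨x', rfl⟩, hx'⟩ := h2
  refine ⟨x', hf ?_⟩
  have : f ((p ^ r : ℤ) • x') = (p ^ r : ℤ) • f x' := map_zsmul f _ _
  rw [this]
  exact hx'.symm

/-- A ring with a finite jointly injective family of ring homomorphisms to rings of integers of
number fields is separated by finitely many DVR points, uniformly for the `p`-adic topology. -/
theorem dvrSeparation_of_family {h : Type u} [CommRing h] {ι : Type*} [Finite ι]
    (K : ι → Type u) [∀ j, Field (K j)] [∀ j, NumberField (K j)]
    (φ : ∀ j, h →+* 𝓞 (K j)) (hinj : ∀ X : h, (∀ j, φ j X = 0) → X = 0)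
    (p : ℕ) (hp : p.Prime) : DVRSeparation p h := by
  classical
  have hp0 : ∀ j, (p : 𝓞 (K j)) ≠ 0 := fun j => by exact_mod_cast hp.ne_zero
  have hfib : ∀ j, Finite {v : HeightOneSpectrum (𝓞 (K j)) // (p : 𝓞 (K j)) ∈ v.asIdeal} := by
    intro j
    have hfin : {v : HeightOneSpectrum (𝓞 (K j)) |
        v.asIdeal ∣ Ideal.span {(p : 𝓞 (K j))}}.Finite :=
      Ideal.finite_factors (by simpa using hp0 j)
    have : {v : HeightOneSpectrum (𝓞 (K j)) | (p : 𝓞 (K j)) ∈ v.asIdeal}.Finite := by
      refine hfin.subset fun v hv => ?_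
      rw [Set.mem_ofPred_eq, Ideal.dvd_span_singleton]
      exact hv
    exact this.to_subtype
  let P : (Σ j : ι, {v : HeightOneSpectrum (𝓞 (K j)) // (p : 𝓞 (K j)) ∈ v.asIdeal}) → DVRPt p h :=
    fun a => (DVRPt.ofPlace p (K a.1) a.2.1 a.2.2).comap (φ a.1)
  refine DVRSeparation.of_finite P fun r => ?_
  let f : h →+ (∀ j, 𝓞 (K j)) := (RingHom.pi φ).toAddMonoidHom
  have hf : Function.Injective f := by
    rw [injective_iff_map_eq_zero]
    intro X hX
    exact hinj X fun j => congrFun hX j
  obtain ⟨c, hc⟩ := exists_artinRees_int f hf p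
  choose m hm using fun j => exists_pow_separation (p : 𝓞 (K j)) (hp0 j) (r + c)
  obtain ⟨m0, hm0⟩ : ∃ m0, ∀ j, m j ≤ m0 := by
    obtain ⟨m0, hm0⟩ := (Set.finite_range m).bddAbove
    exact ⟨m0, fun j => hm0 (Set.mem_range_self j)⟩
  refine ⟨m0, fun X hX => ?_⟩
  have hz : ∀ j, ∃ z : 𝓞 (K j), φ j X = (p : 𝓞 (K j)) ^ (r + c) * z := by
    intro j
    apply hm j
    intro v hv
    have h1 : algebraMap (𝓞 (K j)) (v.adicCompletionIntegers (K j)) (φ j X) ∈
        IsLocalRing.maximalIdeal (v.adicCompletionIntegers (K j)) ^ m0 := hX ⟨j, v, hv⟩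
    have h2 := (algebraMap_mem_maximalIdeal_pow_iff (K := K j) v (φ j X) m0).1 h1
    refine h2.trans (exp_le_exp.2 ?_)
    have := hm0 j
    omega
  choose z hz using hz
  obtain ⟨Y, hY⟩ := hc r X ⟨z, by
    funext j
    change φ j X = ((p : ℤ) ^ (r + c) • z) j
    rw [Pi.smul_apply, hz j, zsmul_eq_mul]
    push_cast
    rfl⟩
  refine ⟨Y, ?_⟩
  rw [hY, zsmul_eq_mul]
  push_cast
  rfl

end Fermat.Agent.DVRPoints
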