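import Mathlib
import Fermat.Agent.Lib.DVRPoints.NumberField

/-!
# DVR points of a reduced ring which is finite and torsion-free over `ℤ`
(owner: helper62)

Main result `dvrSeparation_of_isReduced`: a reduced commutative ring which is a finitely generated
torsion-free `ℤ`-module is separated, uniformly for the `p`-adic topology, by finitely many ring
homomorphisms to complete discrete valuation rings of characteristic zero with finite residue
field of characteristic `p`.
-/

namespace Fermat.Agent.DVRPoints

open NumberField nonZeroDivisors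

universe u

section Domain

variable (D : Type u) [CommRing D] [IsDomain D] [Module.Finite ℤ D] [CharZero D]
  (K : Type u) [Field K] [Algebra D K] [IsFractionRing D K]

include D in
theorem numberField_of_isFractionRing : NumberField K := by
  have : CharZero K := charZero_of_injective_algebraMap (IsFractionRing.injective D K)
  have : FiniteDimensional ℚ K := Module.Finite.of_isLocalization ℤ D ℤ⁰
  exact ⟨⟩

omit [IsDomain D] [CharZero D] [IsFractionRing D K] in
/-- the map from an order to the ring of integers -/
noncomputable def toInt : D →+* 𝓞 K :=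
  (IsIntegralClosure.lift ℤ (𝓞 K) K (S := D)).toRingHom

omit [IsDomain D] [CharZero D] [IsFractionRing D K] in
lemma algebraMap_toInt (x : D) : algebraMap (𝓞 K) K (toInt D K x) = algebraMap D K x :=
  IsIntegralClosure.algebraMap_lift ℤ (𝓞 K) K x

omit [IsDomain D] [CharZero D] in
lemma toInt_injective : Function.Injective (toInt D K) := by
  intro x y hxy
  have h1 := algebraMap_toInt D K x
  rw [hxy, algebraMap_toInt] at h1
  exact (IsFractionRing.injective D K h1).symm

end Domain

/-- The quotient of a `ℤ`-torsion-free ring by a minimal prime has characteristic zero. -/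
theorem charZero_quotient_of_mem_minimalPrimes {h : Type u} [CommRing h]
    (htf : ∀ (n : ℕ) (x : h), n ≠ 0 → (n : h) * x = 0 → x = 0) {𝔭 : Ideal h}
    (h𝔭 : 𝔭 ∈ minimalPrimes h) : CharZero (h ⧸ 𝔭) := by
  have hprime : 𝔭.IsPrime := Ideal.IsMinimalPrime.isPrime h𝔭
  refine charZero_of_inj_zero fun n hn => ?_
  by_contra hn0
  have h1 : (n : h) ∈ 𝔭 := by
    rw [← Ideal.Quotient.eq_zero_iff_mem, map_natCast]
    exact hn
  have h2 : (n : h) ∈ nonZeroDivisors h := by
    rw [mem_nonZeroDivisors_iff_right]
    intro x hx
    exact htf n x hn0 (by rw [mul_comm]; exact hx)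
  exact Set.disjoint_left.1 (Ideal.disjoint_nonZeroDivisors_of_mem_minimalPrimes h𝔭) h1 h2

/-- A reduced commutative ring which is finite and torsion-free over `ℤ` is separated, uniformly
for the `p`-adic topology, by finitely many points in complete discrete valuation rings of
characteristic zero with finite residue field of characteristic `p`. -/
theorem dvrSeparation_of_isReduced (h : Type u) [CommRing h] [Module.Finite ℤ h] [IsReduced h]
    (htf : ∀ (n : ℕ) (x : h), n ≠ 0 → (n : h) * x = 0 → x = 0) (p : ℕ) (hp : p.Prime) :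
    DVRSeparation p h := by
  classical
  have : IsNoetherianRing h := Algebra.FiniteType.isNoetherianRing ℤ h
  have : Finite (minimalPrimes h) := (minimalPrimes.finite_of_isNoetherianRing h).to_subtype
  have hprime : ∀ 𝔭 : minimalPrimes h, 𝔭.1.IsPrime := fun 𝔭 => Ideal.IsMinimalPrime.isPrime 𝔭.2
  have hchar : ∀ 𝔭 : minimalPrimes h, CharZero (h ⧸ 𝔭.1) :=
    fun 𝔭 => charZero_quotient_of_mem_minimalPrimes htf 𝔭.2
  have hnf : ∀ 𝔭 : minimalPrimes h, NumberField (FractionRing (h ⧸ 𝔭.1)) :=
    fun 𝔭 => numberField_of_isFractionRing (h ⧸ 𝔭.1) _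
  refine dvrSeparation_of_family (ι := minimalPrimes h) (fun 𝔭 => FractionRing (h ⧸ 𝔭.1))
    (fun 𝔭 => (toInt (h ⧸ 𝔭.1) (FractionRing (h ⧸ 𝔭.1))).comp (Ideal.Quotient.mk 𝔭.1)) ?_ p hp
  intro X hX
  have h1 : X ∈ sInf (minimalPrimes h) := by
    rw [Ideal.mem_sInf]
    intro 𝔭 h𝔭
    have h2 := hX ⟨𝔭, h𝔭⟩
    rw [RingHom.comp_apply, map_eq_zero_iff _ (toInt_injective _ _),
      Ideal.Quotient.eq_zero_iff_mem] at h2
    exact h2
  rw [minimalPrimes, Ideal.sInf_minimalPrimes] at h1
  have h3 : IsNilpotent X := by
    rwa [← mem_nilradical, nilradical]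
  exact h3.eq_zero

end Fermat.Agent.DVRPoints
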